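/-
M59 (helper20): EVEN-LEVEL twin of `twfr_nf` (TW/Easy/Res/OrdNF.lean): the exponent `m` is any
number prime to `2` (in use: `m = 3 ^ n`), the level `N' * q` is EVEN; the only change is the call of
the tower descent (`m59ev_tower`).  Prefix `m59res_`.
-/
import Mathlib
import Fermat.Agent.S44.Res.OrdNF
import Fermat.Agent.TW.Easy.Res.Tower
import Fermat.Agent.M59.DTwin.EvenTower

set_option autoImplicit false
set_option linter.style.haveILetI false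
set_option linter.unusedSectionVars false
set_option linter.unusedVariables false

noncomputable section

namespace Fermat.Agent.M59

open Fermat.Agent.TW

open Fermat.Agent.SS Fermat.Agent.JT3 Fermat.Agent.S35 IntermediateField ModularCurve IsLocalRing
  AlgebraicCurve Polynomial Fermat.Agent.S44

section NF

variable (L : Type) [Field L] [NumberField L] [Algebra L (AlgebraicClosure ℚ)]
  (O : ValuationSubring L) [IsDiscreteValuationRing O] {π : O} (hπ : Irreducible π)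
variable (N' q : ℕ) [NeZero N'] [NeZero q] [hq : Fact q.Prime] [CharP (ResidueField O) q]
  (hq2 : ¬ 2 ∣ q) (hqN' : ¬ q ∣ N') (ζ : L) (hζ : IsPrimitiveRoot ζ N')

include hζ hq2 in
set_option synthInstance.maxHeartbeats 400000 in
set_option maxHeartbeats 6400000 in
/-- **(E2-ord), number-field step, general exponent `m` coprime to `6`.** -/
theorem m59res_nf (𝒱0 : ValuationSubring ↥(lg_F L (N' * q)))
    (h𝒱0 : 𝒱0 ≤ s44ro_W1 L O hπ N' q)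
    (hA : ∀ a : ↥O, algebraMap ↥O ↥(lg_F L (N' * q)) a ∈ 𝒱0)
    (halg0 : ∀ x ∈ 𝒱0, ∃ p : (↥O)[X], p.Monic ∧ aeval x p ∈ 𝒱0.nonunits)
    (hns : s44ro_jF L (N' * q) ∉ 𝒱0 ∨ ∃ b0 : ↥(lg_F L (N' * q)),
      (∃ P : Polynomial (Polynomial ↥O), P.Monic ∧
        eval₂ (eval₂RingHom (algebraMap ↥O ↥(lg_F L (N' * q))) (s44ro_jF L (N' * q))) b0 P = 0) ∧
      rdn_gf_W L N' q hqN' b0 ∈ (s44ro_W1 L O hπ N' q).nonunits ∧ b0 ∉ 𝒱0.nonunits)
    {m : ℕ} (hm0 : m ≠ 0) (hM2 : 2 ∣ N' * q) (hm2 : Nat.Coprime m 2) {f1 : ↥(lg_F L (N' * q))} (hf1 : f1 ≠ 0)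
    (hord : ∀ P : Place L ↥(lg_F L (N' * q)), (m : ℤ) ∣ P.ord f1)
    (hb : f1 ∈ s44ro_W1 L O hπ N' q) (hbi : f1⁻¹ ∈ s44ro_W1 L O hπ N' q) :
    ∃ h : ↥(lg_F L (N' * q)), h ≠ 0 ∧ (f1 / h ^ m ∈ 𝒱0 ∧ f1 / h ^ m ∉ 𝒱0.nonunits) := by
  have hqO : ((q : ℕ) : O) ∈ maximalIdeal O := ssm_fln_q_mem L O q
  have hq2' : q ≠ 2 := ssm_fl_ne_two q hq2
  have hp := ssm_ll_prime L N' hπ q hqO hq2' hqN' ζ hζ
  have F := ssm_fl_facts O hπ N' q hq2 hqN' hp.1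
  have hs := ssm_si_smooth O hπ N' q hq2 hqN' hp.1 hp.2.1
    (ssm_ll_ic1 L N' hπ q hqO hq2' hqN' ζ hζ) (ssm_ll_ic2 L N' hπ q hqO hq2' hqN' ζ hζ)
    (ssm_ll_reg1 L N' hπ q hqO hq2' hqN' ζ hζ) (ssm_ll_reg2 L N' hπ q hqO hq2' hqN' ζ hζ) F
  haveI := ssm_go_isScalarTower O (lg_E L (N' * q))
  haveI := ssm_go_isScalarTower O (lg_F L (N' * q))
  haveI : FiniteDimensional L⟮(lg_lamE (N' * q) : lg_E L (N' * q))⟯ ↥(lg_E L (N' * q)) :=
    lgf_finite L (N' * q)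
  have hx : Transcendental L (lg_lamE (L := L) (N' * q)) :=
    lgf_lam_transcendental L (N' * q) two_ne_zero
  have H := ssm_gl_hyp O hπ N' q hq2 hqN' hp.1
  have hC := ssm_tp_ff_chart (L := L) (A0 := ↥O) (F0 := ↥(lg_E L (N' * q))) hπ hx
  have hxA : Transcendental ↥O (lg_lamE (L := L) (N' * q)) := fc_ff_transcendental (L := L) hx
  haveI : IsIntegrallyClosed (Algebra.adjoin ↥O ({lg_lamE (N' * q)} : Set ↥(lg_E L (N' * q)))) :=
    fc_ff_isIntegrallyClosed hxA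
  haveI : FaithfulSMul (Algebra.adjoin ↥O ({lg_lamE (N' * q)} : Set ↥(lg_E L (N' * q))))
      ↥(lg_E L (N' * q)) :=
    (faithfulSMul_iff_algebraMap_injective _ _).2 Subtype.val_injective
  set V1 := ssm_gl_V1 O hπ N' q with hV1
  set V2 := ssm_gl_V2 O hπ N' q hq2 hqN' with hV2
  set lam : ↥(lg_E L (N' * q)) := lg_lamE (N' * q) with hlam
  set φ : ↥(lg_F L (N' * q)) →ₐ[L] ↥(lg_E L (N' * q)) := lg_phiE (L := L) (N := N' * q) with hφ
  -- the extension of `𝒱0`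
  have h0 : ∀ x ∈ 𝒱0, (φ : ↥(lg_F L (N' * q)) →+* ↥(lg_E L (N' * q))) x ∈ V1 := fun x hx =>
    s44ro_phi_mem L O x (h𝒱0 hx)
  obtain ⟨𝒱', h𝒱'le, hiff⟩ :=
    s44rc_exists (φ : ↥(lg_F L (N' * q)) →+* ↥(lg_E L (N' * q))) V1 𝒱0 h0
  have hnu := s44rc_nonunits (φ : ↥(lg_F L (N' * q)) →+* ↥(lg_E L (N' * q))) hiff
  have hnu1 : V1.nonunits ≤ 𝒱'.nonunits := ValuationSubring.nonunits_le_nonunits.2 h𝒱'le
  let φO : ↥(lg_F L (N' * q)) →ₐ[↥O] ↥(lg_E L (N' * q)) := φ.restrictScalars ↥O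
  have hA' : ∀ a : ↥O, algebraMap ↥O ↥(lg_E L (N' * q)) a ∈ 𝒱' := fun a => by
    have : algebraMap ↥O ↥(lg_E L (N' * q)) a =
        (φ : ↥(lg_F L (N' * q)) →+* ↥(lg_E L (N' * q)))
          (algebraMap ↥O ↥(lg_F L (N' * q)) a) := (φO.commutes a).symm
    rw [this]
    exact (hiff _).2 (hA a)
  have halg' : ∀ z ∈ 𝒱', ∃ p : (↥O)[X], p.Monic ∧ aeval z p ∈ 𝒱'.nonunits :=
    s44rc_alg φO (fun z => s44ro_algebraic L (N' * q) z) hiff hA halg0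
  -- basic facts on `λ`
  have hlam0 : lam ≠ 0 := by
    intro h
    apply hx
    rw [h]
    exact isAlgebraic_zero
  have hlam1 : lam - 1 ≠ 0 := by
    intro h
    apply hx
    rw [sub_eq_zero.1 h]
    exact isAlgebraic_one
  set lamq : ↥(lg_E L (N' * q)) := ssm_gl_W L N' q hq2 hqN' lam with hlamq
  have hlamq0 : lamq ≠ 0 := by
    rw [hlamq, Ne, map_eq_zero_iff _ (ssm_gl_W L N' q hq2 hqN').injective]
    exact hlam0
  have hlamq1 : lamq - 1 ≠ 0 := by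
    have : lamq - 1 = ssm_gl_W L N' q hq2 hqN' (lam - 1) := by rw [map_sub, map_one]
    rw [this, Ne, map_eq_zero_iff _ (ssm_gl_W L N' q hq2 hqN').injective]
    exact hlam1
  have hB1 : ∀ b ∈ fc_chart ↥O ({lam} : Set ↥(lg_E L (N' * q))), b ∈ V1 := fun b hb =>
    H.over1.mem_of_isIntegral (fc_mem_chart.1 hb)
  -- the witness on the `λ`-chart
  have hwit : lam ∈ 𝒱' → ∃ b : ↥(lg_E L (N' * q)),
      b ∈ fc_chart ↥O ({lam} : Set ↥(lg_E L (N' * q))) ∧ b ∈ V2.nonunits ∧ b ∉ 𝒱'.nonunits := by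
    intro hl
    by_cases hc0 : lam ∈ 𝒱'.nonunits
    · -- the cusp `λ = 0`
      refine ⟨lamq ^ q / lam - 1, Subalgebra.sub_mem _ F.w0' (Subalgebra.one_mem _), F.w0'_sub, ?_⟩
      exact s44ro_cusp_wit V1 𝒱' h𝒱'le hq.out.two_le hlam0 hlamq0 hc0 F.w0_sub
    by_cases hc1 : lam - 1 ∈ 𝒱'.nonunits
    · -- the cusp `λ = 1`
      refine ⟨(lamq - 1) ^ q / (lam - 1) - 1, Subalgebra.sub_mem _ F.w1' (Subalgebra.one_mem _),
        F.w1'_sub, ?_⟩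
      exact s44ro_cusp_wit V1 𝒱' h𝒱'le hq.out.two_le hlam1 hlamq1 hc1 F.w1_sub
    -- `j` is finite
    have hl1 : lam - 1 ∈ 𝒱' := sub_mem hl 𝒱'.one_mem
    set s : ↥(lg_E L (N' * q)) := lam ^ 2 - lam with hs_def
    have hs_eq : s = lam * (lam - 1) := by rw [hs_def]; ring
    have hsnu : s ∉ 𝒱'.nonunits := by
      rw [hs_eq]; exact ssm_tp_mul_not_mem 𝒱' hc0 hc1
    set t : ↥(lg_E L (N' * q)) := s ^ 2 with ht_def
    have htnu : t ∉ 𝒱'.nonunits := ssm_tp_pow_not_mem 𝒱' hsnu 2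
    have hleg : (256 : ↥(lg_E L (N' * q))) * (s + 1) ^ 3 = φ (s44ro_jF L (N' * q)) * t :=
      s44ro_legendre_t L (N' * q)
    have hlamR : lam ∈ Algebra.adjoin ↥O ({lam} : Set ↥(lg_E L (N' * q))) :=
      Algebra.subset_adjoin rfl
    have hsR : s ∈ Algebra.adjoin ↥O ({lam} : Set ↥(lg_E L (N' * q))) :=
      Subalgebra.sub_mem _ (Subalgebra.pow_mem _ hlamR 2) hlamR
    have htR : t ∈ Algebra.adjoin ↥O ({lam} : Set ↥(lg_E L (N' * q))) :=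
      Subalgebra.pow_mem _ hsR 2
    have htjR : t * φ (s44ro_jF L (N' * q)) ∈
        Algebra.adjoin ↥O ({lam} : Set ↥(lg_E L (N' * q))) := by
      have e : t * φ (s44ro_jF L (N' * q)) = (256 : ↥(lg_E L (N' * q))) * (s + 1) ^ 3 :=
        (mul_comm _ _).trans hleg.symm
      rw [e]
      refine Subalgebra.mul_mem _ ?_ (Subalgebra.pow_mem _
        (Subalgebra.add_mem _ hsR (Subalgebra.one_mem _)) 3)
      have : (256 : ↥(lg_E L (N' * q))) = algebraMap ↥O ↥(lg_E L (N' * q)) 256 := by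
        rw [map_ofNat]
      rw [this]
      exact Subalgebra.algebraMap_mem _ _
    -- `j ∈ 𝒱0`
    have hj𝒱' : φ (s44ro_jF L (N' * q)) ∈ 𝒱' := by
      have ht0 : t ≠ 0 := ssm_tp_ne_zero 𝒱' htnu
      have : φ (s44ro_jF L (N' * q)) = (256 * (s + 1) ^ 3) * t⁻¹ := by
        rw [hleg, mul_assoc, mul_inv_cancel₀ ht0, mul_one]
      rw [this]
      have hs𝒱 : s ∈ 𝒱' := by
        rw [hs_eq]; exact 𝒱'.mul_mem _ _ hl hl1
      refine 𝒱'.mul_mem _ _ (𝒱'.mul_mem _ _ ?_ (𝒱'.pow_mem (𝒱'.add_mem _ _ hs𝒱 𝒱'.one_mem) 3))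
        (ssm_tp_inv_mem 𝒱' htnu)
      have : (256 : ↥(lg_E L (N' * q))) = algebraMap ↥O ↥(lg_E L (N' * q)) 256 := by
        rw [map_ofNat]
      rw [this]
      exact hA' _
    have hj𝒱0 : s44ro_jF L (N' * q) ∈ 𝒱0 := (hiff _).1 hj𝒱'
    rcases hns with hcusp | ⟨b0, ⟨P, hPm, hPb0⟩, hWb0, hb0nu⟩
    · exact absurd hj𝒱0 hcusp
    -- the chart change
    have hPy : eval₂ (eval₂RingHom (algebraMap ↥O ↥(lg_E L (N' * q)))
        (φ (s44ro_jF L (N' * q)))) (φ b0) P = 0 := by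
      have h1 := Polynomial.hom_eval₂ P
        (eval₂RingHom (algebraMap ↥O ↥(lg_F L (N' * q))) (s44ro_jF L (N' * q)))
        (φ : ↥(lg_F L (N' * q)) →+* ↥(lg_E L (N' * q))) b0
      rw [hPb0, map_zero] at h1
      have h2 : (φ : ↥(lg_F L (N' * q)) →+* ↥(lg_E L (N' * q))).comp
          (eval₂RingHom (algebraMap ↥O ↥(lg_F L (N' * q))) (s44ro_jF L (N' * q))) =
          eval₂RingHom (algebraMap ↥O ↥(lg_E L (N' * q))) (φ (s44ro_jF L (N' * q))) := by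
        apply Polynomial.ringHom_ext
        · intro a
          simp only [RingHom.comp_apply, coe_eval₂RingHom, eval₂_C]
          exact φO.commutes a
        · simp only [RingHom.comp_apply, coe_eval₂RingHom, eval₂_X]
          rfl
      rw [h2] at h1
      exact h1.symm
    obtain ⟨D, hD⟩ := s44ro_chart_mul (O := ↥O) lam (φ (s44ro_jF L (N' * q))) t htR htjR
      (φ b0) P hPm hPy
    refine ⟨t ^ D * φ b0, fc_mem_chart.2 hD, ?_, ?_⟩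
    · -- on the second component
      rw [hV2, s44ro_comap_nonunits, map_mul, map_pow,
        mul_comm ((ssm_gl_W L N' q hq2 hqN') t ^ D)]
      refine ssm_tp_nonunits_mul V1 ?_ (V1.pow_mem ?_ D)
      · -- `W (φ b0) = φ (W b0)`
        have e : ssm_gl_W L N' q hq2 hqN' (φ b0) = φ (rdn_gf_W L N' q hqN' b0) :=
          Subtype.ext (by
            rw [lg_phiE_coe]
            exact s44ro_W_phi L N' q hq.out hq2 hqN' b0)
        rw [e]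
        have hbW : gq_IsBdd O L ((rdn_gf_W L N' q hqN' b0 : ↥(lg_F L (N' * q))) :
            LaurentSeries L) := ValuationSubring.nonunits_subset hWb0
        have hres := (gq_mem_nonunits_iff_res π hπ.ne_zero hπ.maximalIdeal_eq (lg_F L (N' * q))
          (rdn_gf_le_quotField O (N' * q)) _ hbW).1 hWb0
        exact (gq_mem_nonunits_iff_res π hπ.ne_zero hπ.maximalIdeal_eq (lg_E L (N' * q))
          (ssm_ga_E_le_quotField O (N' * q)) _ (s44ro_phi_mem L O _ hbW)).2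
          (s44ro_phi_res L O _ hbW hres)
      · -- `W t ∈ V1`
        have hlq : lamq ∈ V1 := hB1 _ F.lamq_mem
        have : ssm_gl_W L N' q hq2 hqN' t = (lamq ^ 2 - lamq) ^ 2 := by
          rw [ht_def, hs_def, map_pow, map_sub, map_pow]
        rw [this]
        exact V1.pow_mem (sub_mem (V1.pow_mem hlq 2) hlq) 2
    · -- a unit at `𝒱'`
      refine ssm_tp_mul_not_mem 𝒱' (ssm_tp_pow_not_mem 𝒱' htnu D) ?_
      intro h1
      exact hb0nu ((hnu b0).1 h1)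
  -- the two chart conditions
  have hpt1 : lam ∈ 𝒱' →
      ∀ 𝔫 : Ideal (fc_chart ↥O ({lam} : Set ↥(lg_E L (N' * q)))), 𝔫.IsMaximal →
      ssm_tp_P (fc_chart ↥O ({lam} : Set ↥(lg_E L (N' * q)))) V1 ≤ 𝔫 →
      (∀ b : fc_chart ↥O ({lam} : Set ↥(lg_E L (N' * q))),
        b ∈ 𝔫 ↔ (b : ↥(lg_E L (N' * q))) ∈ 𝒱'.nonunits) →
      ss_SmoothAt π (fc_chart ↥O ({lam} : Set ↥(lg_E L (N' * q)))) 𝔫 := by
    intro hl 𝔫 h𝔫 hP1 hmem
    obtain ⟨b, hbB, hb2, hbu⟩ := hwit hl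
    have hπ𝔫 : algebraMap ↥O (fc_chart ↥O ({lam} : Set ↥(lg_E L (N' * q)))) π ∈ 𝔫 := by
      apply hP1
      rw [H.mem_P1 hC]
      exact H.over1.pi_mem
    refine hs.1 𝔫 h𝔫 hπ𝔫 fun hP2 => ?_
    have hb𝔫 : (⟨b, hbB⟩ : fc_chart ↥O ({lam} : Set ↥(lg_E L (N' * q)))) ∈ 𝔫 := by
      apply hP2
      rw [H.mem_P2 hC]
      exact hb2
    exact hbu ((hmem _).1 hb𝔫)
  have hpt2 : lam ∉ 𝒱' →
      ∀ 𝔫 : Ideal (fc_chart ↥O ({lam⁻¹} : Set ↥(lg_E L (N' * q)))), 𝔫.IsMaximal →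
      ssm_tp_P (fc_chart ↥O ({lam⁻¹} : Set ↥(lg_E L (N' * q)))) V1 ≤ 𝔫 →
      (∀ b : fc_chart ↥O ({lam⁻¹} : Set ↥(lg_E L (N' * q))),
        b ∈ 𝔫 ↔ (b : ↥(lg_E L (N' * q))) ∈ 𝒱'.nonunits) →
      (⟨lam⁻¹, fc_x_mem_chart lam⁻¹⟩ : fc_chart ↥O ({lam⁻¹} : Set ↥(lg_E L (N' * q)))) ∈ 𝔫 →
      ss_SmoothAt π (fc_chart ↥O ({lam⁻¹} : Set ↥(lg_E L (N' * q)))) 𝔫 := by
    intro hl 𝔫 h𝔫 hP1 hmem hμ
    have hxi : Transcendental L (lg_lamE (L := L) (N' * q))⁻¹ :=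
      fun h => hx (IsAlgebraic.inv_iff.mp h)
    have H2 := ssm_tp_ff_hyp_inv (L := L) hπ hx H
    have hC2 := ssm_tp_ff_chart (L := L) (A0 := ↥O) (F0 := ↥(lg_E L (N' * q))) hπ hxi
    have hxiA : Transcendental ↥O (lg_lamE (L := L) (N' * q))⁻¹ :=
      fc_ff_transcendental (L := L) hxi
    haveI : IsIntegrallyClosed
        (Algebra.adjoin ↥O ({(lg_lamE (N' * q))⁻¹} : Set ↥(lg_E L (N' * q)))) :=
      fc_ff_isIntegrallyClosed hxiA
    haveI : FaithfulSMul (Algebra.adjoin ↥O ({(lg_lamE (N' * q))⁻¹} : Set ↥(lg_E L (N' * q))))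
        ↥(lg_E L (N' * q)) :=
      (faithfulSMul_iff_algebraMap_injective _ _).2 Subtype.val_injective
    have hπ𝔫 : algebraMap ↥O
        (fc_chart ↥O ({(lg_lamE (N' * q))⁻¹} : Set ↥(lg_E L (N' * q)))) π ∈ 𝔫 := by
      apply hP1
      rw [H2.mem_P1 hC2]
      exact H2.over1.pi_mem
    exact s44rs_leg_pts2 L O hπ N' q hq2 hqN' ζ hζ 𝔫 h𝔫 hπ𝔫 hμ
  -- `G = φ f1`
  have hG0 : φ f1 ≠ 0 := by rwa [Ne, map_eq_zero]
  have hordG : ∀ P : Place L ↥(lg_E L (N' * q)), (m : ℤ) ∣ P.ord (φ f1) := fun P =>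
    lg_dvd_ord_of_embedding φ (m : ℤ) f1 hord P
  have hG1 : φ f1 ∈ V1 ∧ φ f1 ∉ V1.nonunits := by
    refine ⟨s44ro_phi_mem L O f1 hb, fun hnu' => ?_⟩
    rw [ValuationSubring.mem_nonunits_iff_or] at hnu'
    rcases hnu' with h | h
    · exact hG0 h
    · apply h
      rw [← map_inv₀]
      exact s44ro_phi_mem L O f1⁻¹ hbi
  obtain ⟨e, ω, hGω, he, hω⟩ :=
    s44rs_hdiv (L := L) hπ hx H 𝒱' h𝒱'le hA' halg' hpt1 hpt2 m hG0 hordG hG1
  obtain ⟨y, hy0, hy1, hy2⟩ := m59ev_tower L (N' * q) hM2 two_ne_zero 𝒱' hm0 hm2 hf1 hω hGω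
  refine ⟨y, hy0, ?_, ?_⟩
  · rw [← hiff, map_div₀, map_pow]
    exact hy1
  · rw [← hnu, map_div₀, map_pow]
    exact hy2

end NF

end Fermat.Agent.M59
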