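import Fermat.Agent.TW.Easy.Res.Defs
import Fermat.Agent.TW.Easy.Res.OrdMain
import Fermat.Agent.TW.Easy.Res.Main
import Fermat.Agent.M59.DTwin.Res.OrdMain
import Fermat.Agent.S44.Res.Main

/-!
# M59 (helper20): EVEN-LEVEL twins of the deliverables of TW/Easy/Res/Main.lean (section `Closed`)

`2 ∣ M`, exponent `m ≠ 0` prime to `2` (in use: `m = 3 ^ n`).  Prefix `m59res_`.
-/

set_option autoImplicit false
set_option linter.unusedSectionVars false
set_option linter.style.haveILetI false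

noncomputable section

namespace Fermat.Agent.M59

open Fermat.Agent.TW

open ModularCurve AlgebraicCurve IsLocalRing Fermat.Agent.JT3 Fermat.Agent.S35 Fermat.Agent.SS
  Fermat.Agent.S24 Fermat.Agent.SS2 Fermat.Agent.S44

local notation "Qb" => AlgebraicClosure ℚ

section Closed

variable (A : ValuationSubring Qb) {q : ℕ} [hq : Fact q.Prime] (hA : A.LiesOverPrime q)
  (M : ℕ) [NeZero M] [NeZero q] [NeZero (M * q)] (hqM : ¬ q ∣ M) (hq2 : q ≠ 2)
  {m : ℕ} (hm0 : m ≠ 0) (hM2 : 2 ∣ M) (hm2 : Nat.Coprime m 2)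

include hA hqM hq2 hm0 hM2 hm2

/-- **(E2-ord)**: `m ∣ ord_Q f̄_z` at every non-supersingular place. -/
theorem m59res_ord_off {z : JZero (M * q)} (hz : m • z = 0)
    (Q : Place (s44e_kA A) (s44e_FF A M)) (hQ : ¬ s44e_IsSS A M q hq.out hqM Q) :
    (m : ℤ) ∣ Q.ord (twfr_fbar A M q m z) :=
  twfr_ord_off_of A hA M hqM hm0 (m59res_ord A hA M hqM hq2 hm0 hM2 hm2) hz Q hQ

/-- **`ν z = 0 ⟹ m ∣ div f̄_z`.** -/
theorem m59res_dvd_all {z : JZero (M * q)} (hz : m • z = 0)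
    (hν : twfr_nu A M q hq.out hqM m z = 0) (Q : Place (s44e_kA A) (s44e_FF A M)) :
    (m : ℤ) ∣ Q.ord (twfr_fbar A M q m z) :=
  twfr_dvd_all_of A hA M hqM hm0 (m59res_ord A hA M hqM hq2 hm0 hM2 hm2) hz hν Q

/-- for ANY `f̄_z`: `ν z = 0 ⟹ m ∣ div f̄_z`. -/
theorem m59res_dvd_all_Fbar {z : JZero (M * q)} (hz : m • z = 0)
    (hν : twfr_nu A M q hq.out hqM m z = 0) {fb : s44e_FF A M} (h : twfr_Fbar A M q m z fb)
    (Q : Place (s44e_kA A) (s44e_FF A M)) : (m : ℤ) ∣ Q.ord fb := by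
  have hm := Nat.pos_of_ne_zero hm0
  have h1 := m59res_dvd_all A hA M hqM hq2 hm0 hM2 hm2 hz hν Q
  have h2 := (twfr_nuAll_eq_zero_iff A hq.out hA M hm (s44rd_hmem A hA M hqM)
    (twfr_fbar_spec' A hA M hqM hm0 hz) Q).2 h1
  exact (twfr_nuAll_eq_zero_iff A hq.out hA M hm (s44rd_hmem A hA M hqM) h Q).1 h2

/-- **`δ` is additive on `J₀(M q)[m] ∩ ker ν`.** -/
theorem m59res_delta_add_of_nu {z z' : JZero (M * q)} (hz : m • z = 0) (hz' : m • z' = 0)
    (hν : twfr_nu A M q hq.out hqM m z = 0) (hν' : twfr_nu A M q hq.out hqM m z' = 0) :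
    twfr_delta A M q m (z + z') = twfr_delta A M q m z + twfr_delta A M q m z' :=
  twfr_delta_add A hq.out hA M hqM (Nat.pos_of_ne_zero hm0) (s44rd_hmem A hA M hqM) hz hz'
    (m59res_dvd_all A hA M hqM hq2 hm0 hM2 hm2 hz hν) (m59res_dvd_all A hA M hqM hq2 hm0 hM2 hm2 hz' hν')

/-- on `ker ν`: `f̄_z` not an `m`-th power ⟹ `δ z ≠ 0`. -/
theorem m59res_delta_ne_of_nu {z : JZero (M * q)} (hz : m • z = 0)
    (hν : twfr_nu A M q hq.out hqM m z = 0)
    (hnp : ¬ ∃ g : s44e_FF A M, twfr_fbar A M q m z = g ^ m) :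
    twfr_delta A M q m z ≠ 0 :=
  twfr_delta_ne A hq.out hA M hqM (Nat.pos_of_ne_zero hm0) (s44rd_hmem A hA M hqM) hz
    (m59res_dvd_all A hA M hqM hq2 hm0 hM2 hm2 hz hν) hnp

/-- on `ker ν`: `δ z = 0 ⟹` EVERY `f̄_z` is an `m`-th power. -/
theorem m59res_pow_of_nu_delta {z : JZero (M * q)} (hz : m • z = 0)
    (hν : twfr_nu A M q hq.out hqM m z = 0) (hδ : twfr_delta A M q m z = 0)
    {fb : s44e_FF A M} (h : twfr_Fbar A M q m z fb) :
    ∃ g : s44e_FF A M, g ≠ 0 ∧ fb = g ^ m :=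
  twfr_Fbar_pow_of_delta_eq_zero A hq.out hA M hqM (Nat.pos_of_ne_zero hm0)
    (s44rd_hmem A hA M hqM) hz h (m59res_dvd_all_Fbar A hA M hqM hq2 hm0 hM2 hm2 hz hν h) hδ

/-- **`ν z = 0 = δ z ⟹ z` has a representative which is a Gauss unit with reduction `1`.** -/
theorem m59res_one_of_nu_delta {z : JZero (M * q)} (hz : m • z = 0)
    (hν : twfr_nu A M q hq.out hqM m z = 0) (hδ : twfr_delta A M q m z = 0) :
    ∃ f : modularFunctionFieldBar (M * q), s44f_Rep (M * q) m z f ∧ s44e_RedOf A M f 1 := by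
  have hm := Nat.pos_of_ne_zero hm0
  obtain ⟨fb, hfb⟩ := twfr_fbar_exists A hq.out hA M hm (s44rd_hmem A hA M hqM) hz
  obtain ⟨g, hg0, hg⟩ := m59res_pow_of_nu_delta A hA M hqM hq2 hm0 hM2 hm2 hz hν hδ hfb
  obtain ⟨hfb0, f, hf, hred⟩ := hfb
  obtain ⟨G, hG, hGres⟩ := s44rd_hsurj A hA M hqM g
  have hGred : s44e_RedOf A M G g := ⟨hG, hGres⟩
  have hG0 : G ≠ 0 := by
    rintro rfl
    obtain ⟨hb, e⟩ := hGred
    have : (⟨((0 : modularFunctionFieldBar (M * q)) : LaurentSeries Qb), hb⟩ :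
        ↥(gq_bddSubring ↥A Qb)) = 0 := rfl
    rw [this, map_zero] at e
    exact hg0 (Subtype.ext e.symm)
  refine ⟨f * (G ^ m)⁻¹, ?_, ?_⟩
  · -- still a representative
    have h1 := (s44b_rep_pth (M * q) (p := m) (z := z) (f := f) (c := (1 : Qb))
      (h := G⁻¹) one_ne_zero (inv_ne_zero hG0)).2 hf
    rwa [map_one, one_mul, inv_pow] at h1
  · have h1 := s44e_redOf_mul A M hred
      (s44e_redOf_inv A M (s44e_redOf_pow A M hGred m) (pow_ne_zero _ hg0))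
    rwa [hg, mul_inv_cancel₀ (pow_ne_zero _ hg0)] at h1

end Closed

end Fermat.Agent.M59
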